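import Mathlib
import Fermat.Agent.LT.H556.A0
import Fermat.Agent.LT.T1.Spec
import Fermat.Agent.LT.T5.Spec
import Fermat.Agent.LT.T7.Level2
import Fermat.Agent.LT.T7.H40.ProjSpec
import Fermat.Agent.LT.T7.H40.ArchProjSpec

/-!
# Row LT, tower T7, sub-leaf T7.L2.1.P1 `AvgInvC`: CLOSED (helper944)

OFF-MAIN.  Sub-spec: `LT/T7/H40/ArchProjSpec.lean` (helper40, sha256 34d7f842), byte-identical
copy of the closure.  Nothing is assumed.

`avgInvC944 (K) : AvgInvC K` (VERBATIM): the mean over the unit cube along a period family is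
invariant under the positive scalars.

Proof: `z = Y t₀`; `F s = ψ (g * Y s)` is `ℤ^ι`-periodic; the cube and its translate by `t₀` are
fundamental domains of `ℤ^ι` (`integral_cube_periodic944`, Mathlib only).
-/

set_option autoImplicit false

open AutomorphicForm IsDedekindDomain NumberField MeasureTheory
open scoped Pointwise

noncomputable section

namespace Fermat.Agent.LT.T7.H944

open Fermat.Agent.LT.H556 Fermat.Agent.LT.H556.A0 Fermat.Agent.LT.T7 Fermat.Agent.LT.T7.H40

attribute [local instance] Fermat.Agent.LT.T5.instMeasurableSpaceG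

/-- The elements of the lattice spanned by the standard basis are the integral vectors. -/
theorem exists_int_of_mem_span944 (ι : Type) [Fintype ι] (l : ι → ℝ)
    (hl : l ∈ Submodule.span ℤ (Set.range (Pi.basisFun ℝ ι))) :
    ∃ n : ι → ℤ, l = fun i => (n i : ℝ) := by
  classical
  induction hl using Submodule.span_induction with
  | mem x hx =>
    obtain ⟨j, rfl⟩ := hx
    refine ⟨Pi.single j 1, ?_⟩
    funext i
    rw [Pi.basisFun_apply]
    by_cases h : i = j
    · subst h; simp
    · simp [h]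
  | zero => exact ⟨0, by funext i; simp⟩
  | add x y _ _ hx hy =>
    obtain ⟨n, rfl⟩ := hx
    obtain ⟨m, rfl⟩ := hy
    exact ⟨n + m, by funext i; simp⟩
  | smul a x _ hx =>
    obtain ⟨n, rfl⟩ := hx
    exact ⟨a • n, by funext i; simp⟩

/-- The integral over the unit cube of a `ℤ^ι`-periodic function is invariant under
translations. -/
theorem integral_cube_periodic944 (ι : Type) [Fintype ι] {E : Type*} [NormedAddCommGroup E]
    [NormedSpace ℝ E] (F : (ι → ℝ) → E)
    (hF : ∀ (s : ι → ℝ) (n : ι → ℤ), F (s + fun i => (n i : ℝ)) = F s) (t₀ : ι → ℝ) :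
    (∫ t in Set.univ.pi fun _ : ι => Set.Ico (0 : ℝ) 1, F (t₀ + t))
      = ∫ t in Set.univ.pi fun _ : ι => Set.Ico (0 : ℝ) 1, F t := by
  have hD : IsAddFundamentalDomain (Submodule.span ℤ (Set.range (Pi.basisFun ℝ ι)))
      (Set.univ.pi fun _ : ι => Set.Ico (0 : ℝ) 1) volume := by
    rw [← ZSpan.fundamentalDomain_pi_basisFun]
    exact ZSpan.isAddFundamentalDomain (Pi.basisFun ℝ ι) volume
  have hD' : IsAddFundamentalDomain (Submodule.span ℤ (Set.range (Pi.basisFun ℝ ι)))
      (t₀ +ᵥ (Set.univ.pi fun _ : ι => Set.Ico (0 : ℝ) 1)) volume :=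
    hD.vadd_of_comm t₀
  have hinv : ∀ (l : Submodule.span ℤ (Set.range (Pi.basisFun ℝ ι))) (x : ι → ℝ),
      F (l +ᵥ x) = F x := by
    intro l x
    obtain ⟨n, hn⟩ := exists_int_of_mem_span944 ι (l : ι → ℝ) l.2
    have : (l +ᵥ x) = x + fun i => (n i : ℝ) := by
      rw [← hn, add_comm]
      rfl
    rw [this, hF]
  haveI : VAddInvariantMeasure (Submodule.span ℤ (Set.range (Pi.basisFun ℝ ι))) (ι → ℝ)
      (volume : Measure (ι → ℝ)) :=
    ⟨fun l s _ => measure_preimage_add volume (l : ι → ℝ) s⟩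
  have h1 := hD'.setIntegral_eq hD hinv
  rw [← h1]
  have h2 := (measurePreserving_add_left (volume : Measure (ι → ℝ)) t₀).setIntegral_image_emb
    (measurableEmbedding_addLeft t₀) F (Set.univ.pi fun _ : ι => Set.Ico (0 : ℝ) 1)
  rw [← h2]
  rfl

/-- **T7.L2.1.P1 AVG-INV** (`AvgInvC`, VERBATIM). -/
theorem avgInvC944 (K : Type) [Field K] [NumberField K] : AvgInvC K := by
  intro 𝔑 r Y hY ψ hψ w z hz g
  obtain ⟨t₀, rfl⟩ := hY.surj w z hz
  have hF : ∀ (s : InfinitePlace K → ℝ) (n : InfinitePlace K → ℤ),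
      ψ (g * Y (s + fun i => (n i : ℝ))) = ψ (g * Y s) := by
    intro s n
    rw [hY.mul, ← mul_assoc]
    exact hY.period ψ hψ.aut n (g * Y s)
  have key := integral_cube_periodic944 (InfinitePlace K) (fun s => ψ (g * Y s)) hF t₀
  show (∫ t in cube40 K, ψ (g * Y t₀ * Y t)) = ∫ t in cube40 K, ψ (g * Y t)
  rw [cube40, ← key]
  refine integral_congr_ae (Filter.Eventually.of_forall fun t => ?_)
  show ψ (g * Y t₀ * Y t) = ψ (g * Y (t₀ + t))
  rw [hY.mul, mul_assoc]

end Fermat.Agent.LT.T7.H944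

end
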