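import Mathlib
import Fermat.Agent.LT.H556.A0
import Fermat.Agent.LT.T1.Spec
import Fermat.Agent.LT.T5.Spec
import Fermat.Agent.LT.T7.Level2
import Fermat.Agent.LT.T7.H40.ProjSpec
import Fermat.Agent.LT.T7.H40.ArchProjSpec

/-!
# Row LT, tower T7, sub-leaf T7.L2.1.P1f `AvgContC`: CLOSED (helper944)

OFF-MAIN.  Sub-spec: `LT/T7/H40/ArchProjSpec.lean` (helper40, sha256 34d7f842) on
`LT/T7/H40/ProjSpec.lean` (ac5b80ed), `LT/T7/Level2.lean` (15516646), `LT/T5/Spec.lean` v4
(f2d97e70), `LT/T1/Spec.lean` (e8ae48d6), `LT/H556/A0.lean` (66d3374a): byte-identical copies.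
Nothing is assumed.

`avgContC944 (K) : AvgContC K` (VERBATIM): the mean over the unit cube of a bounded continuous
function along a continuous family is continuous.

Proof: dominated convergence (`MeasureTheory.continuous_of_dominated`) with the constant bound
on the cube (volume `1`); `GL₂(𝔸_K)` is second countable (`T1.T1Out.locComp`), hence first
countable.  Abstract form: `continuous_avg944` (any topological group, any set of finite
measure).
-/

set_option autoImplicit false

open AutomorphicForm IsDedekindDomain NumberField MeasureTheory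

noncomputable section

namespace Fermat.Agent.LT.T7.H944

open Fermat.Agent.LT.H556 Fermat.Agent.LT.H556.A0 Fermat.Agent.LT.T7 Fermat.Agent.LT.T7.H40

/-- The unit cube has finite volume. -/
theorem volume_cube_lt_top944 (ι : Type) [Fintype ι] :
    volume (Set.univ.pi fun _ : ι => Set.Ico (0 : ℝ) 1) < ⊤ := by
  rw [volume_pi_pi]
  simp

/-- Abstract form: the mean of a bounded continuous function along a continuous family over a
set of finite measure is continuous. -/
theorem continuous_avg944 {X T : Type*} [TopologicalSpace X] [FirstCountableTopology X] [Mul X]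
    [ContinuousMul X] [TopologicalSpace T] [MeasurableSpace T] [OpensMeasurableSpace T]
    [SecondCountableTopology T] (μ : Measure T) (s : Set T) (hs : μ s < ⊤) (Y : T → X)
    (hY : Continuous Y) (ψ : X → ℂ) (hψ : Continuous ψ) (C : ℝ) (hC : ∀ g : X, ‖ψ g‖ ≤ C) :
    Continuous fun g : X => ∫ t in s, ψ (g * Y t) ∂μ := by
  haveI : IsFiniteMeasure (μ.restrict s) := ⟨by rwa [Measure.restrict_apply_univ]⟩
  refine continuous_of_dominated (bound := fun _ => C) (fun g => ?_) (fun g => ?_) ?_ ?_
  · exact (hψ.comp (continuous_const.mul hY)).aestronglyMeasurable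
  · exact Filter.Eventually.of_forall fun t => hC _
  · exact integrable_const C
  · exact Filter.Eventually.of_forall fun t => hψ.comp (continuous_id.mul continuous_const)

/-- **T7.L2.1.P1f** (`AvgContC`, VERBATIM). -/
theorem avgContC944 (K : Type) [Field K] [NumberField K] : AvgContC K := by
  intro hT1 Y hY ψ hψ hb
  obtain ⟨C, hC⟩ := hb
  haveI : SecondCountableTopology (G K) := hT1.locComp.2.2.2
  exact continuous_avg944 volume (cube40 K) (volume_cube_lt_top944 (InfinitePlace K)) Y hY ψ hψ
    C hC

end Fermat.Agent.LT.T7.H944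

end
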